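import Mathlib.NumberTheory.Chebyshev
import Mathlib.NumberTheory.PrimeCounting
import Mathlib.Data.Nat.Choose.Bounds
import Mathlib.Data.Nat.Squarefree
import Mathlib.Analysis.Complex.ExponentialBounds

/-!
# Many smooth numbers at a common distance

The products of `r` of the first `t` primes are more than the square root of their size allows, so
one difference occurs often; `r = √(t / (80 log t))` makes this `exp r` times.
-/

set_option autoImplicit false

noncomputable section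

open Finset Real Filter

namespace FA.StewartTijdeman

theorem exists_difference (X : Finset ℕ) {M : ℕ} (hM : 0 < M) (hX : ∀ x ∈ X, x ≤ M) :
    ∃ d, 0 < d ∧ d ≤ M ∧
      X.card * (X.card - 1) ≤ M * (2 * (X.filter fun y => y + d ∈ X).card) := by
  classical
  obtain ⟨d, hd, hmax⟩ := (Icc 1 M).exists_max_image
    (fun d => (X.filter fun y => y + d ∈ X).card) ⟨1, mem_Icc.2 ⟨le_rfl, hM⟩⟩
  refine ⟨d, (mem_Icc.1 hd).1, (mem_Icc.1 hd).2, ?_⟩
  set δ : ℕ × ℕ → ℕ := fun p => max p.1 p.2 - min p.1 p.2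
  have hmaps : ∀ p ∈ X.offDiag, δ p ∈ Icc 1 M := fun p hp => by
    obtain ⟨h1, h2, hne⟩ := mem_offDiag.1 hp
    have := hX _ h1
    have := hX _ h2
    simp only [mem_Icc, δ]
    omega
  have hfib : ∀ e ∈ Icc 1 M,
      (X.offDiag.filter fun p => δ p = e).card ≤ 2 * (X.filter fun y => y + d ∈ X).card := by
    intro e he
    refine le_trans ?_ (Nat.mul_le_mul_left 2 (hmax e he))
    set F := X.filter fun y => y + e ∈ X
    refine (card_le_card (t := (F.image fun y => (y, y + e)) ∪ F.image fun y => (y + e, y))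
      ?_).trans ((card_union_le _ _).trans ((Nat.add_le_add card_image_le card_image_le).trans_eq
        (two_mul _).symm))
    rintro ⟨x, y⟩ hp
    obtain ⟨hp, hδ⟩ := mem_filter.1 hp
    obtain ⟨h1, h2, hne⟩ := mem_offDiag.1 hp
    simp only [δ] at hδ
    rcases le_total x y with h | h
    · refine mem_union_left _ (mem_image.2 ⟨x, mem_filter.2 ⟨h1, ?_⟩, ?_⟩)
      · rwa [show x + e = y by omega]
      · exact Prod.ext rfl (by omega)
    · refine mem_union_right _ (mem_image.2 ⟨y, mem_filter.2 ⟨h2, ?_⟩, ?_⟩)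
      · rwa [show y + e = x by omega]
      · exact Prod.ext (by omega) rfl
  have h := card_eq_sum_card_fiberwise (f := δ) (s := X.offDiag) (t := Icc 1 M)
    fun p hp => hmaps p hp
  rw [offDiag_card, ← Nat.mul_sub_one] at h
  rw [h]
  exact (sum_le_card_nsmul _ _ _ hfib).trans (by simp)

theorem eventually_large :
    ∀ᶠ t : ℕ in atTop, 1 ≤ Real.log t ∧ 2000 * Real.log t ≤ (t : ℝ) := by
  have h := (isLittleO_log_id_atTop.bound (show (0 : ℝ) < 1 / 2000 by norm_num))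
  filter_upwards [tendsto_natCast_atTop_atTop.eventually h,
    (tendsto_log_atTop.comp tendsto_natCast_atTop_atTop).eventually_ge_atTop 1] with t ht h1
  refine ⟨h1, ?_⟩
  rw [Real.norm_eq_abs, Real.norm_eq_abs] at ht
  have := abs_of_nonneg (Nat.cast_nonneg t : (0 : ℝ) ≤ t)
  simp only [id] at ht
  rw [this] at ht
  linarith [le_abs_self (Real.log (t : ℝ))]

theorem enough_primes {t : ℕ} (h1 : 1 ≤ Real.log t) (h2 : 2000 * Real.log t ≤ (t : ℝ)) :
    ∃ N : ℕ, (N : ℝ) ≤ 5 * t * Real.log t ∧ t ≤ (Nat.primesLE N).card := by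
  set L := Real.log t
  have ht : (2000 : ℝ) ≤ t := by linarith
  refine ⟨⌈4 * (t : ℝ) * L⌉₊, ?_, ?_⟩
  · have := Nat.ceil_lt_add_one (show (0 : ℝ) ≤ 4 * t * L by positivity)
    nlinarith
  set N := ⌈4 * (t : ℝ) * L⌉₊
  have hN1 : 4 * (t : ℝ) * L ≤ N := Nat.le_ceil _
  have hN2 : (N : ℝ) + 1 ≤ 5 * t * L := by
    have := Nat.ceil_lt_add_one (show (0 : ℝ) ≤ 4 * t * L by positivity)
    nlinarith
  have hNt : (N : ℝ) + 1 ≤ (t : ℝ) * t := hN2.trans (by nlinarith)
  have hN0 : (1 : ℝ) < N := by nlinarith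
  have hlog : Real.log ((N : ℝ) + 1) ≤ 2 * L := by
    refine (Real.log_le_log (by linarith) hNt).trans_eq ?_
    rw [Real.log_mul (by linarith) (by linarith)]; ring
  have hlogN : Real.log (N : ℝ) ≤ 2 * L :=
    (Real.log_le_log (by linarith) (by linarith)).trans hlog
  have hpi := Chebyshev.pi_ge N
  rw [div_le_iff₀ (Real.log_pos hN0)] at hpi
  have hπ : (0 : ℝ) ≤ (Nat.primeCounting N : ℝ) := Nat.cast_nonneg _
  have : (t : ℝ) ≤ (Nat.primeCounting N : ℝ) := by
    have hl2 := Real.log_two_gt_d9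
    nlinarith [mul_le_mul_of_nonneg_left hlogN hπ, mul_le_mul hN1 hl2.le (by norm_num)
      (by linarith : (0 : ℝ) ≤ N)]
  rw [Nat.primesLE_card_eq_primeCounting]
  exact_mod_cast this

/-- The key estimate. -/
theorem many_pairs {t : ℕ} (h1 : 1 ≤ Real.log t) (h2 : 2000 * Real.log t ≤ (t : ℝ)) :
    ∃ (S : Finset ℕ) (d : ℕ) (Y : Finset ℕ), (∀ p ∈ S, p.Prime) ∧ S.card ≤ 2 * t ∧ 0 < d ∧
      d.primeFactors ⊆ S ∧
      (∀ y ∈ Y, 0 < y ∧ y.primeFactors ⊆ S ∧ (y + d).primeFactors ⊆ S) ∧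
      Real.exp (Real.sqrt ((t : ℝ) / (80 * Real.log t)) / 2) ≤ (Y.card : ℝ) := by
  obtain ⟨N, hN, hNt⟩ := enough_primes h1 h2
  obtain ⟨P, hP, hPc⟩ := Finset.exists_subset_card_eq hNt
  set L := Real.log t
  set R := Real.sqrt ((t : ℝ) / (80 * L))
  set r := ⌊R⌋₊
  have ht : (2000 : ℝ) ≤ t := by linarith
  have hR2 : R ^ 2 = t / (80 * L) := Real.sq_sqrt (by positivity)
  have hR : 5 ≤ R := Real.le_sqrt_of_sq_le (by rw [le_div_iff₀ (by positivity)]; linarith)
  have hr5 : 5 ≤ r := Nat.le_floor (by exact_mod_cast hR)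
  have hrR : (r : ℝ) ≤ R := Nat.floor_le (by linarith)
  have hRr : R < r + 1 := Nat.lt_floor_add_one R
  have hr2 : (r : ℝ) ^ 2 * (80 * L) ≤ t := by
    have : (r : ℝ) ^ 2 ≤ R ^ 2 := pow_le_pow_left₀ (Nat.cast_nonneg r) hrR 2
    rw [hR2, le_div_iff₀ (by positivity)] at this
    exact this
  have hrt : 2 * (r : ℝ) ≤ t := by nlinarith
  have hprime : ∀ p ∈ P, p.Prime := fun p hp => (Nat.mem_primesLE.1 (hP hp)).2
  set X := (P.powersetCard r).image fun s => ∏ p ∈ s, p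
  have hXmem : ∀ x ∈ X, 0 < x ∧ x ≤ N ^ r ∧ x.primeFactors ⊆ P := by
    intro x hx
    obtain ⟨s, hs, rfl⟩ := mem_image.1 hx
    obtain ⟨hsP, hsc⟩ := mem_powersetCard.1 hs
    refine ⟨prod_pos fun p hp => (hprime p (hsP hp)).pos, ?_, ?_⟩
    · rw [← hsc, ← prod_const]
      exact prod_le_prod' fun p hp => (Nat.mem_primesLE.1 (hP (hsP hp))).1
    · rw [Nat.primeFactors_prod fun p hp => hprime p (hsP hp)]
      exact hsP
  have hXc : X.card = t.choose r := by
    rw [card_image_of_injOn, card_powersetCard, hPc]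
    intro s hs s' hs' e
    have h' := congrArg Nat.primeFactors e
    simp only at h'
    rwa [Nat.primeFactors_prod fun p hp => hprime p ((mem_powersetCard.1 hs).1 hp),
      Nat.primeFactors_prod fun p hp => hprime p ((mem_powersetCard.1 hs').1 hp)] at h'
  -- the number of products
  have hC : ((t : ℝ) / (2 * r)) ^ r ≤ (X.card : ℝ) := by
    rw [hXc]
    refine le_trans ?_ (Nat.pow_le_choose r t)
    have hrn : r ≤ t + 1 := by exact_mod_cast (show (r : ℝ) ≤ t + 1 by linarith)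
    rw [div_pow, div_le_div_iff₀ (pow_pos (by positivity) r) (by exact_mod_cast r.factorial_pos)]
    push_cast [Nat.cast_sub hrn]
    calc (t : ℝ) ^ r * (r.factorial : ℝ) ≤ (t : ℝ) ^ r * ((r : ℝ) ^ r) := by
          gcongr; exact_mod_cast Nat.factorial_le_pow r
      _ = ((t : ℝ) * r) ^ r := (mul_pow _ _ _).symm
      _ ≤ (((t : ℝ) + 1 - r) * (2 * r)) ^ r :=
          pow_le_pow_left₀ (by positivity) (by nlinarith) r
      _ = _ := mul_pow _ _ _
  have hN0 : 0 < N := by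
    obtain ⟨p, hp⟩ : P.Nonempty :=
      card_pos.1 (by rw [hPc]; exact_mod_cast (by linarith : (0 : ℝ) < t))
    have := (Nat.mem_primesLE.1 (hP hp))
    linarith [this.1, this.2.pos]
  obtain ⟨d, hd0, hdM, hd⟩ := exists_difference X (pow_pos hN0 r) fun x hx => (hXmem x hx).2.1
  set Y := X.filter fun y => y + d ∈ X
  -- the primes of the difference
  set k := d.primeFactors.card
  have hk : (k : ℝ) ≤ t := by
    have h2k : 2 ^ k ≤ N ^ r := by
      rw [← prod_const]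
      exact (prod_le_prod' fun p hp => (Nat.prime_of_mem_primeFactors hp).two_le).trans
        ((Nat.le_of_dvd hd0 (Nat.prod_primeFactors_dvd d)).trans hdM)
    have h2k' : (2 : ℝ) ^ k ≤ ((t : ℝ) * t) ^ r :=
      (show (2 : ℝ) ^ k ≤ (N : ℝ) ^ r by exact_mod_cast h2k).trans
        (pow_le_pow_left₀ (Nat.cast_nonneg N) (hN.trans (by nlinarith)) r)
    have h := Real.log_le_log (by positivity) h2k'
    rw [Real.log_pow, Real.log_pow, Real.log_mul (by linarith) (by linarith)] at h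
    have hl2 := Real.log_two_gt_d9
    have hsq : (3 * (r : ℝ) * L) ^ 2 ≤ (t : ℝ) ^ 2 := by nlinarith
    have h3 : 3 * (r : ℝ) * L ≤ t := abs_le_of_sq_le_sq' hsq (by linarith) |>.2
    nlinarith
  refine ⟨P ∪ d.primeFactors, d, Y, fun p hp => ?_, ?_, hd0, subset_union_right, fun y hy => ?_, ?_⟩
  · exact (mem_union.1 hp).elim (hprime p) Nat.prime_of_mem_primeFactors
  · refine (card_union_le _ _).trans ?_
    have hk' : k ≤ t := by exact_mod_cast hk
    omega
  · obtain ⟨hy1, hy2⟩ := mem_filter.1 hy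
    exact ⟨(hXmem y hy1).1, (hXmem y hy1).2.2.trans subset_union_left,
      (hXmem _ hy2).2.2.trans subset_union_left⟩
  -- the count
  have hC2 : (2 : ℝ) ≤ (X.card : ℝ) := by
    refine le_trans ?_ hC
    refine le_trans ?_ (le_self_pow₀ ?_ (by omega))
    all_goals rw [le_div_iff₀ (by positivity)]; nlinarith
  have hd' : (X.card : ℝ) * ((X.card : ℝ) - 1) ≤ (N : ℝ) ^ r * (2 * (Y.card : ℝ)) := by
    have h : ((X.card * (X.card - 1) : ℕ) : ℝ) ≤ ((N ^ r * (2 * Y.card) : ℕ) : ℝ) :=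
      Nat.cast_le.2 hd
    push_cast [Nat.cast_sub (by exact_mod_cast (by linarith : (1 : ℝ) ≤ X.card) : 1 ≤ X.card)] at h
    exact h
  have hNr : (0 : ℝ) < (N : ℝ) ^ r := pow_pos (Nat.cast_pos.2 hN0) r
  have hbig : (4 : ℝ) ^ r ≤ ((t : ℝ) / (2 * r)) ^ r * ((t : ℝ) / (2 * r)) ^ r / (N : ℝ) ^ r := by
    rw [← mul_pow, ← div_pow]
    refine pow_le_pow_left₀ (by norm_num) ?_ r
    rw [le_div_iff₀ (Nat.cast_pos.2 hN0), div_mul_div_comm, le_div_iff₀ (by positivity)]
    nlinarith [mul_le_mul_of_nonneg_left hN (show (0 : ℝ) ≤ 16 * (r : ℝ) ^ 2 by positivity)]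
  have hY : (4 : ℝ) ^ r / 4 ≤ (Y.card : ℝ) := by
    rw [div_le_iff₀ (by norm_num)]
    refine hbig.trans ?_
    rw [div_le_iff₀ hNr]
    nlinarith [mul_le_mul hC hC (by positivity) (by linarith)]
  refine le_trans ?_ hY
  calc Real.exp (R / 2) ≤ Real.exp (r : ℝ) := Real.exp_le_exp.2 (by linarith)
    _ = Real.exp 1 ^ r := (Real.exp_one_pow r).symm
    _ ≤ (4 : ℝ) ^ r / 4 := by
      rw [le_div_iff₀ (by norm_num)]
      have he : Real.exp 1 ≤ 2.72 := by linarith [Real.exp_one_lt_d9]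
      calc Real.exp 1 ^ r * 4 ≤ (2.72 : ℝ) ^ r * (4 / 2.72 : ℝ) ^ r :=
            mul_le_mul (pow_le_pow_left₀ (Real.exp_pos 1).le he r)
              ((show (4 : ℝ) ≤ (4 / 2.72) ^ 5 by norm_num).trans
                (pow_le_pow_right₀ (by norm_num) hr5)) (by norm_num) (by positivity)
        _ = (4 : ℝ) ^ r := by rw [← mul_pow]; norm_num

theorem many_pairs_eventually : ∃ c : ℝ, 0 < c ∧ ∀ᶠ s : ℕ in atTop,
    ∃ (S : Finset ℕ) (d : ℕ) (Y : Finset ℕ), (∀ p ∈ S, p.Prime) ∧ S.card ≤ s ∧ 0 < d ∧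
      d.primeFactors ⊆ S ∧
      (∀ y ∈ Y, 0 < y ∧ y.primeFactors ⊆ S ∧ (y + d).primeFactors ⊆ S) ∧
      Real.exp (c * Real.sqrt ((s : ℝ) / Real.log s)) ≤ (Y.card : ℝ) := by
  refine ⟨Real.sqrt (1 / 240) / 2, by positivity, ?_⟩
  filter_upwards [(Nat.tendsto_div_const_atTop (show (2 : ℕ) ≠ 0 by norm_num)).eventually
    eventually_large] with s hs
  obtain ⟨h1, h2⟩ := hs
  obtain ⟨S, d, Y, hS, hSc, hd, hdS, hY, hYc⟩ := many_pairs h1 h2
  refine ⟨S, d, Y, hS, hSc.trans (by omega), hd, hdS, hY, le_trans (Real.exp_le_exp.2 ?_) hYc⟩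
  have ht : (1 : ℝ) ≤ ((s / 2 : ℕ) : ℝ) := by linarith
  have hts : (s : ℝ) ≤ 3 * ((s / 2 : ℕ) : ℝ) := by
    have : 1 ≤ s / 2 := by exact_mod_cast ht
    exact_mod_cast (show s ≤ 3 * (s / 2) by omega)
  have hLs : Real.log ((s / 2 : ℕ) : ℝ) ≤ Real.log s :=
    Real.log_le_log (by linarith) (by exact_mod_cast Nat.div_le_self s 2)
  rw [div_mul_eq_mul_div, ← Real.sqrt_mul (by norm_num)]
  refine div_le_div_of_nonneg_right (Real.sqrt_le_sqrt ?_) (by norm_num)
  rw [div_mul_div_comm, one_mul]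
  rw [div_le_div_iff₀ (by nlinarith) (by positivity)]
  nlinarith

end FA.StewartTijdeman

end
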