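import Fermat.Agent.BeukersSchlickewei.ThueMahler
import Mathlib.NumberTheory.Padics.PadicVal.Basic

/-!
# Counting solutions of the unit equation over `ℚ`

A rational without primes outside `T` is a unit at the places of `ℚ` outside those over `T`, of
which there are at most `#T`.
-/

set_option autoImplicit false

noncomputable section

open Height NumberField Finset FA.BeukersSchlickewei

namespace FA.StewartTijdeman

/-- A nonzero rational composed of the primes in `T`. -/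
def Composed (T : Finset ℕ) (q : ℚ) : Prop :=
  q ≠ 0 ∧ ∀ p : ℕ, p.Prime → p ∉ T → padicValRat p q = 0

theorem composed_natCast {T : Finset ℕ} {n : ℕ} (hn : n ≠ 0) (h : n.primeFactors ⊆ T) :
    Composed T (n : ℚ) := by
  refine ⟨Nat.cast_ne_zero.2 hn, fun p hp hpT => ?_⟩
  rw [padicValRat.of_nat, padicValNat.eq_zero_of_not_dvd
    fun hd => hpT (h (Nat.mem_primeFactors.2 ⟨hp, hd, hn⟩)), Nat.cast_zero]

theorem composed_intCast {T : Finset ℕ} {z : ℤ} (hz : z ≠ 0)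
    (h : z.natAbs.primeFactors ⊆ T) : Composed T (z : ℚ) := by
  refine ⟨Int.cast_ne_zero.2 hz, fun p hp hpT => ?_⟩
  rw [padicValRat.of_int, padicValInt, padicValNat.eq_zero_of_not_dvd
    fun hd => hpT (h (Nat.mem_primeFactors.2 ⟨hp, hd, Int.natAbs_ne_zero.2 hz⟩)), Nat.cast_zero]

theorem Composed.div {T : Finset ℕ} {x y : ℚ} (hx : Composed T x) (hy : Composed T y) :
    Composed T (x / y) := by
  refine ⟨div_ne_zero hx.1 hy.1, fun p hp hpT => ?_⟩
  have : Fact p.Prime := ⟨hp⟩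
  rw [padicValRat.div hx.1 hy.1, hx.2 p hp hpT, hy.2 p hp hpT, sub_zero]

theorem Composed.neg {T : Finset ℕ} {x : ℚ} (hx : Composed T x) : Composed T (-x) :=
  ⟨neg_ne_zero.2 hx.1, fun p hp hpT => by rw [padicValRat.neg, hx.2 p hp hpT]⟩

theorem num_den_primes {T : Finset ℕ} {q : ℚ} (hq : Composed T q) {p : ℕ} (hp : p.Prime)
    (hd : p ∣ q.num.natAbs ∨ p ∣ q.den) : p ∈ T := by
  have : Fact p.Prime := ⟨hp⟩
  by_contra hpT
  have h := hq.2 p hp hpT
  rw [padicValRat, padicValInt, sub_eq_zero, Nat.cast_inj] at h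
  have hn : q.num.natAbs ≠ 0 := Int.natAbs_ne_zero.2 (Rat.num_ne_zero.2 hq.1)
  have h1 : 1 ≤ padicValNat p q.num.natAbs ∧ 1 ≤ padicValNat p q.den := by
    rcases hd with hd | hd
    · have := one_le_padicValNat_of_dvd hn hd; omega
    · have := one_le_padicValNat_of_dvd q.den_nz hd; omega
  exact hp.not_dvd_one (q.reduced ▸ Nat.dvd_gcd (dvd_of_one_le_padicValNat h1.1)
    (dvd_of_one_le_padicValNat h1.2))

/-- **Beukers–Schlickewei over `ℚ`**. -/
theorem unit_equation_count (T : Finset ℕ) {a b : ℚ} (ha : a ≠ 0) (hb : b ≠ 0)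
    (U : Finset (ℚ × ℚ))
    (hU : ∀ u ∈ U, Composed T u.1 ∧ Composed T u.2 ∧ a * u.1 + b * u.2 = 1) :
    U.card ≤ 555 * 5 ^ (38 * T.card + 57) := by
  classical
  set T' := T.filter Nat.Prime
  have hfin : ∀ p : T', {v : FinitePlace ℚ | v ((p : ℕ) : ℚ) < 1}.Finite := fun p =>
    (FinitePlace.hasFiniteMulSupport
      (Nat.cast_ne_zero.2 (mem_filter.1 p.2).2.ne_zero : ((p : ℕ) : ℚ) ≠ 0)).subset
      fun v hv => ne_of_lt hv
  set W := univ.biUnion fun p : T' => (hfin p).toFinset with hW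
  have hnat : ∀ (n : ℕ), n ≠ 0 → (∀ p : ℕ, p.Prime → p ∣ n → p ∈ T) → ∀ v ∉ W, v (n : ℚ) = 1 :=
    fun n hn h v hv => finitePlace_eq_one_of_primes v hn fun p hp hd => by
      refine le_antisymm (finitePlace_natCast_le v p) (not_lt.1 fun hlt => hv ?_)
      have hpT : p ∈ T' := mem_filter.2 ⟨h p hp hd, hp⟩
      exact mem_biUnion.2 ⟨⟨p, hpT⟩, mem_univ _, (hfin ⟨p, hpT⟩).mem_toFinset.2 hlt⟩
  have hone : ∀ q, Composed T q → ∀ v ∉ W, v q = 1 := fun q hq v hv => by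
    have hn := hnat _ (Int.natAbs_ne_zero.2 (Rat.num_ne_zero.2 hq.1))
      (fun p hp hd => num_den_primes hq hp (Or.inl hd)) v hv
    have hden := hnat _ q.den_nz (fun p hp hd => num_den_primes hq hp (Or.inr hd)) v hv
    rw [← Rat.num_div_den q, map_div₀, hden, div_one]
    rcases Int.natAbs_eq q.num with e | e <;> rw [e]
    · rw [Int.cast_natCast]; exact hn
    · rw [Int.cast_neg, Int.cast_natCast, FinitePlace.coe_apply, AbsoluteValue.map_neg,
        ← FinitePlace.coe_apply]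
      exact hn
  let f : {u // u ∈ U} ↪ ℚˣ × ℚˣ :=
    ⟨fun u => (Units.mk0 u.1.1 (hU u.1 u.2).1.1, Units.mk0 u.1.2 (hU u.1 u.2).2.1.1),
      fun u w h => Subtype.ext (Prod.ext (congrArg (fun z : ℚˣ × ℚˣ => (z.1 : ℚ)) h)
        (congrArg (fun z : ℚˣ × ℚˣ => (z.2 : ℚ)) h))⟩
  have key := card_line_solutions_le ha hb W (U.attach.map f) (fun u hu v hv => by
    obtain ⟨z, -, rfl⟩ := mem_map.1 hu
    exact ⟨hone _ (hU z.1 z.2).1 v hv, hone _ (hU z.1 z.2).2.1 v hv⟩) fun u hu => by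
    obtain ⟨z, -, rfl⟩ := mem_map.1 hu
    exact (hU z.1 z.2).2.2
  rw [card_map, card_attach] at key
  have hinf : Fintype.card (InfinitePlace ℚ) ≤ 1 := Fintype.card_le_one_iff_subsingleton.2
    inferInstance
  have hWc : W.card ≤ T.card := by
    refine (card_biUnion_le_card_mul _ _ 1 fun p _ => ?_).trans ?_
    · exact (card_places_le (mem_filter.1 p.2).2 _ fun v hv =>
        (hfin p).mem_toFinset.1 hv).trans_eq (Module.finrank_self ℚ)
    · rw [card_univ, Fintype.card_coe, mul_one]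
      exact card_filter_le _ _
  refine key.trans (Nat.mul_le_mul_left _ (Nat.pow_le_pow_right (by norm_num) ?_))
  omega

/-- Two linear functions of the elements of a set with values composed of the primes in `T`. -/
theorem card_le_of_linear (T : Finset ℕ) (A : Finset ℤ) {r₁ s₁ r₂ s₂ : ℤ}
    (hr₁ : r₁ ≠ 0) (hr₂ : r₂ ≠ 0) (hD : r₂ * s₁ - r₁ * s₂ ≠ 0)
    (h : ∀ a ∈ A, r₁ * a + s₁ ≠ 0 ∧ r₂ * a + s₂ ≠ 0 ∧
      (r₁ * a + s₁).natAbs.primeFactors ⊆ T ∧ (r₂ * a + s₂).natAbs.primeFactors ⊆ T) :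
    A.card ≤ 555 * 5 ^ (38 * T.card + 57) := by
  classical
  set g : ℤ → ℚ × ℚ := fun a => (((r₁ * a + s₁ : ℤ) : ℚ), ((r₂ * a + s₂ : ℤ) : ℚ))
  have hD' : ((r₂ * s₁ - r₁ * s₂ : ℤ) : ℚ) ≠ 0 := Int.cast_ne_zero.2 hD
  have hg : Function.Injective g := fun x y e => by
    have := congrArg Prod.fst e
    simp only [g, Int.cast_inj, add_left_inj, mul_right_inj' hr₁] at this
    exact this
  rw [← card_image_of_injective A hg]
  refine unit_equation_count T (a := (r₂ : ℚ) / ((r₂ * s₁ - r₁ * s₂ : ℤ) : ℚ))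
    (b := -(r₁ : ℚ) / ((r₂ * s₁ - r₁ * s₂ : ℤ) : ℚ))
    (div_ne_zero (Int.cast_ne_zero.2 hr₂) hD')
    (div_ne_zero (neg_ne_zero.2 (Int.cast_ne_zero.2 hr₁)) hD') _ fun u hu => ?_
  obtain ⟨a, ha, rfl⟩ := mem_image.1 hu
  obtain ⟨h1, h2, h3, h4⟩ := h a ha
  refine ⟨composed_intCast h1 h3, composed_intCast h2 h4, ?_⟩
  simp only [g]
  field_simp
  push_cast
  ring

end FA.StewartTijdeman

end
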